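import Fermat.Agent.Carayol.Field.Legendre
import Fermat.Agent.Mazur.Wp.Group

/-!
# The curve `y² = x (x - 1) (x - λ)` at a point of the upper half plane

`xAt v` is the normalised abscissa and `yAt u v` the ordinate times four times that of `u`:
`℘'(v) ℘'(u) / δ³`.
-/

set_option autoImplicit false
set_option linter.unusedSectionVars false

noncomputable section

namespace FA.Carayol

open UpperHalfPlane hiding I
open FA.Mazur.Wp FA.Level FA.ModField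

variable (N h : ℕ) (τ : ℍ)

/-- `℘` at a vector. -/
def wpAt (v : ℤ × ℤ) : ℂ := (latPair τ).weierstrassP (zPt N v.1 v.2 τ)

/-- `℘'` at a vector. -/
def wqAt (v : ℤ × ℤ) : ℂ := (latPair τ).derivWeierstrassP (zPt N v.1 v.2 τ)

/-- The denominator of the normalisation. -/
def deltaAt : ℂ := wpAt N τ (tA h) - wpAt N τ (tB h)

/-- The normalised abscissa. -/
def xAt (v : ℤ × ℤ) : ℂ := (wpAt N τ v - wpAt N τ (tB h)) / deltaAt N h τ

/-- The cubic at an abscissa. -/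
def cubAt (x : ℂ) : ℂ := x * (x - 1) * (x - xAt N h τ (tC h))

/-- The product of two ordinates, normalised. -/
def yAt (u v : ℤ × ℤ) : ℂ := wqAt N τ v * wqAt N τ u / deltaAt N h τ ^ 3

theorem zPt_add (v w : ℤ × ℤ) :
    zPt N (v + w).1 (v + w).2 τ = zPt N v.1 v.2 τ + zPt N w.1 w.2 τ := by
  simp only [zPt, Prod.fst_add, Prod.snd_add]
  push_cast
  ring

theorem zPt_sub (v w : ℤ × ℤ) :
    zPt N (v - w).1 (v - w).2 τ = zPt N v.1 v.2 τ - zPt N w.1 w.2 τ := by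
  simp only [zPt, Prod.fst_sub, Prod.snd_sub]
  push_cast
  ring

theorem zPt_neg (v : ℤ × ℤ) : zPt N (-v).1 (-v).2 τ = -zPt N v.1 v.2 τ := by
  simp only [zPt, Prod.fst_neg, Prod.snd_neg]
  push_cast
  ring

theorem wpAt_neg (v : ℤ × ℤ) : wpAt N τ (-v) = wpAt N τ v := by
  rw [wpAt, zPt_neg, PeriodPair.weierstrassP_neg, wpAt]

theorem wqAt_neg (v : ℤ × ℤ) : wqAt N τ (-v) = -wqAt N τ v := by
  rw [wqAt, zPt_neg, PeriodPair.derivWeierstrassP_neg, wqAt]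

theorem xAt_neg (v : ℤ × ℤ) : xAt N h τ (-v) = xAt N h τ v := by rw [xAt, wpAt_neg, xAt]

theorem yAt_neg (u v : ℤ × ℤ) : yAt N h τ u (-v) = -yAt N h τ u v := by
  rw [yAt, wqAt_neg, yAt]; ring

/-- The ratio is the normalised abscissa. -/
theorem ratFun_eq_xAt (v : ℤ × ℤ) : ratFun N v (tA h) (tB h) τ = xAt N h τ v := by
  simp only [ratFun, xAt, deltaAt, wpAt, xVal]
  rw [← sub_div, ← sub_div, div_div_div_cancel_right₀ (pow_ne_zero 2 tpi_ne_zero)]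

variable {N h} [NeZero N]

theorem notMem_of_isVec {v : ℤ × ℤ} (hv : IsVec N v) :
    zPt N v.1 v.2 τ ∉ (latPair τ).lattice := fun hm => hv ((zPt_mem_iff v τ).1 hm)

theorem wpAt_ne {v w : ℤ × ℤ} (hv : IsVec N v) (hw : IsVec N w) (hvw : Apart N v w) :
    wpAt N τ v ≠ wpAt N τ w := fun he => xVal_ne hv hw hvw τ (by
  simp only [xVal]; exact congrArg (· / tpi ^ 2) he)

theorem at_congr {v w : ℤ × ℤ} (h1 : (N : ℤ) ∣ v.1 - w.1) (h2 : (N : ℤ) ∣ v.2 - w.2) :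
    wpAt N τ v = wpAt N τ w ∧ wqAt N τ v = wqAt N τ w := by
  have hmem : zPt N (v - w).1 (v - w).2 τ ∈ (latPair τ).lattice := (zPt_mem_iff _ τ).2 ⟨h1, h2⟩
  have he : zPt N v.1 v.2 τ = zPt N w.1 w.2 τ + zPt N (v - w).1 (v - w).2 τ := by
    rw [← zPt_add, add_sub_cancel]
  exact ⟨by rw [wpAt, he, (wp_sub_coe _ hmem).1, wpAt],
    by rw [wqAt, he, (wp_sub_coe _ hmem).2, wqAt]⟩

theorem wqAt_two {v : ℤ × ℤ} (h1 : (N : ℤ) ∣ v.1 - -v.1) (h2 : (N : ℤ) ∣ v.2 - -v.2) :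
    wqAt N τ v = 0 := by
  have e := (at_congr τ (v := v) (w := -v) h1 h2).2
  rw [wqAt_neg] at e
  linear_combination e / 2

variable (hN : N = 2 * h)
include hN

theorem delta_ne_zero : deltaAt N h τ ≠ 0 :=
  sub_ne_zero.2 (wpAt_ne τ (isVec_tA hN) (isVec_tB hN) (apart_ab hN))

theorem wqAt_half : wqAt N τ (tA h) = 0 ∧ wqAt N τ (tB h) = 0 ∧ wqAt N τ (tC h) = 0 := by
  have hd : (N : ℤ) ∣ (h : ℤ) - -(h : ℤ) := ⟨1, by rw [hN]; push_cast; ring⟩
  have h0 : (N : ℤ) ∣ (0 : ℤ) - -(0 : ℤ) := by simp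
  exact ⟨wqAt_two τ hd h0, wqAt_two τ h0 hd, wqAt_two τ hd hd⟩

/-- The roots of the cubic of the lattice. -/
theorem half_sums : wpAt N τ (tA h) + wpAt N τ (tB h) + wpAt N τ (tC h) = 0 ∧
    (latPair τ).g₂ = -4 * (wpAt N τ (tA h) * wpAt N τ (tB h) + wpAt N τ (tB h) * wpAt N τ (tC h) +
      wpAt N τ (tC h) * wpAt N τ (tA h)) ∧
    (latPair τ).g₃ = 4 * wpAt N τ (tA h) * wpAt N τ (tB h) * wpAt N τ (tC h) := by
  obtain ⟨qa, qb, qc⟩ := wqAt_half τ hN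
  have ea := (latPair τ).derivWeierstrassP_sq _ (notMem_of_isVec τ (isVec_tA hN))
  have eb := (latPair τ).derivWeierstrassP_sq _ (notMem_of_isVec τ (isVec_tB hN))
  have ec := (latPair τ).derivWeierstrassP_sq _ (notMem_of_isVec τ (isVec_tC hN))
  rw [← wqAt, qa, ← wpAt] at ea
  rw [← wqAt, qb, ← wpAt] at eb
  rw [← wqAt, qc, ← wpAt] at ec
  have nab := sub_ne_zero.2 (wpAt_ne τ (isVec_tA hN) (isVec_tB hN) (apart_ab hN))
  have ncb := sub_ne_zero.2 (wpAt_ne τ (isVec_tC hN) (isVec_tB hN) (apart_cb hN))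
  have nca := sub_ne_zero.2 (wpAt_ne τ (isVec_tC hN) (isVec_tA hN) (apart_ca hN))
  generalize wpAt N τ (tA h) = a at *
  generalize wpAt N τ (tB h) = b at *
  generalize wpAt N τ (tC h) = c at *
  generalize (latPair τ).g₂ = G at *
  generalize (latPair τ).g₃ = H at *
  have k1 : G = 4 * (a ^ 2 + a * b + b ^ 2) := by
    apply mul_left_cancel₀ nab
    linear_combination ea - eb
  have k2 : G = 4 * (c ^ 2 + c * b + b ^ 2) := by
    apply mul_left_cancel₀ ncb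
    linear_combination ec - eb
  have k3 : a + b + c = 0 := by
    apply mul_left_cancel₀ (mul_ne_zero (show (4 : ℂ) ≠ 0 by norm_num) nca)
    linear_combination k1 - k2
  refine ⟨k3, ?_, ?_⟩
  · linear_combination k1 + 4 * (a + b) * k3
  · linear_combination ea - a * k1 - 4 * a * b * k3

theorem wpAt_eq (v : ℤ × ℤ) :
    wpAt N τ v = deltaAt N h τ * xAt N h τ v + wpAt N τ (tB h) := by
  rw [xAt, mul_div_cancel₀ _ (delta_ne_zero τ hN), sub_add_cancel]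

theorem wp_roots : wpAt N τ (tA h) = deltaAt N h τ + wpAt N τ (tB h) ∧
    3 * wpAt N τ (tB h) = -deltaAt N h τ * (1 + xAt N h τ (tC h)) := by
  obtain ⟨k, -⟩ := half_sums τ hN
  have ec := wpAt_eq τ hN (tC h)
  refine ⟨by rw [deltaAt]; ring, ?_⟩
  rw [show wpAt N τ (tA h) = deltaAt N h τ + wpAt N τ (tB h) by rw [deltaAt]; ring, ec] at k
  linear_combination k

theorem wqAt_sq {v : ℤ × ℤ} (hv : IsVec N v) :
    wqAt N τ v ^ 2 = 4 * deltaAt N h τ ^ 3 * cubAt N h τ (xAt N h τ v) := by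
  obtain ⟨k, kg, kh⟩ := half_sums τ hN
  have e := (latPair τ).derivWeierstrassP_sq _ (notMem_of_isVec τ hv)
  rw [← wqAt, ← wpAt, kg, kh] at e
  have ev := wpAt_eq τ hN v
  have ec := wpAt_eq τ hN (tC h)
  obtain ⟨ea, -⟩ := wp_roots τ hN
  have hfac : wqAt N τ v ^ 2 = 4 * (wpAt N τ v - wpAt N τ (tA h)) *
      (wpAt N τ v - wpAt N τ (tB h)) * (wpAt N τ v - wpAt N τ (tC h)) := by
    linear_combination e + 4 * wpAt N τ v ^ 2 * k
  rw [hfac, ev, ea, ec, cubAt]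
  ring

theorem cubAt_ne_zero {u : ℤ × ℤ} (hu : IsVec N u) (ha : Apart N u (tA h)) (hb : Apart N u (tB h))
    (hc : Apart N u (tC h)) : cubAt N h τ (xAt N h τ u) ≠ 0 := by
  obtain ⟨ea, -⟩ := wp_roots τ hN
  have eu := wpAt_eq τ hN u
  have ec := wpAt_eq τ hN (tC h)
  refine mul_ne_zero (mul_ne_zero (fun h0 => ?_) (fun h0 => ?_)) (fun h0 => ?_)
  · exact wpAt_ne τ hu (isVec_tB hN) hb (by rw [eu, h0]; ring)
  · exact wpAt_ne τ hu (isVec_tA hN) ha (by rw [eu, sub_eq_zero.1 h0, ea]; ring)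
  · exact wpAt_ne τ hu (isVec_tC hN) hc (by rw [eu, sub_eq_zero.1 h0, ec])

theorem yAt_sq {u v : ℤ × ℤ} (hu : IsVec N u) (hv : IsVec N v) : yAt N h τ u v ^ 2 =
    16 * cubAt N h τ (xAt N h τ u) * cubAt N h τ (xAt N h τ v) := by
  have hd := delta_ne_zero τ hN
  rw [yAt, div_pow, mul_pow, wqAt_sq τ hN hu, wqAt_sq τ hN hv]
  field_simp
  ring

theorem yAt_self {u : ℤ × ℤ} (hu : IsVec N u) :
    yAt N h τ u u = 4 * cubAt N h τ (xAt N h τ u) := by
  have hd := delta_ne_zero τ hN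
  rw [yAt, ← sq, wqAt_sq τ hN hu]
  field_simp

theorem isVec_add {v w : ℤ × ℤ} (hvw : Apart N v w) : IsVec N (v + w) := hvw.2

theorem xAt_add {u v w : ℤ × ℤ} (hu : IsVec N u) (hv : IsVec N v) (hw : IsVec N w)
    (hvw : Apart N v w) : (yAt N h τ u v - yAt N h τ u w) ^ 2 =
    16 * cubAt N h τ (xAt N h τ u) * (xAt N h τ v - xAt N h τ w) ^ 2 *
      (xAt N h τ (v + w) + xAt N h τ v + xAt N h τ w - 1 - xAt N h τ (tC h)) := by
  have hne : (latPair τ).weierstrassP (zPt N v.1 v.2 τ) ≠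
      (latPair τ).weierstrassP (zPt N w.1 w.2 τ) := wpAt_ne τ hv hw hvw
  obtain ⟨-, hadd⟩ := wp_add _ (notMem_of_isVec τ hv) (notMem_of_isVec τ hw) hne
  rw [← zPt_add, ← wpAt, ← wqAt, ← wqAt, ← wpAt, ← wpAt] at hadd
  have hd := delta_ne_zero τ hN
  have hsub : wpAt N τ v - wpAt N τ w ≠ 0 := sub_ne_zero.2 hne
  have key : (wqAt N τ v - wqAt N τ w) ^ 2 = 4 * (wpAt N τ v - wpAt N τ w) ^ 2 *
      (wpAt N τ (v + w) + wpAt N τ v + wpAt N τ w) := by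
    rw [hadd]
    field_simp
    ring
  obtain ⟨-, eb⟩ := wp_roots τ hN
  rw [wpAt_eq τ hN v, wpAt_eq τ hN w, wpAt_eq τ hN (v + w)] at key
  calc (yAt N h τ u v - yAt N h τ u w) ^ 2
      = (wqAt N τ v - wqAt N τ w) ^ 2 * wqAt N τ u ^ 2 / deltaAt N h τ ^ 6 := by
        simp only [yAt]; ring
    _ = _ := by
      rw [key, wqAt_sq τ hN hu, div_eq_iff (pow_ne_zero 6 hd)]
      linear_combination 16 * deltaAt N h τ ^ 5 * cubAt N h τ (xAt N h τ u) *
        (xAt N h τ v - xAt N h τ w) ^ 2 * eb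

theorem yAt_add {u v w : ℤ × ℤ} (hv : IsVec N v) (hw : IsVec N w) (hvw : Apart N v w) :
    (yAt N h τ u (v + w) + yAt N h τ u v) * (xAt N h τ v - xAt N h τ w) =
      -(yAt N h τ u v - yAt N h τ u w) * (xAt N h τ (v + w) - xAt N h τ v) := by
  have hne : (latPair τ).weierstrassP (zPt N v.1 v.2 τ) ≠
      (latPair τ).weierstrassP (zPt N w.1 w.2 τ) := wpAt_ne τ hv hw hvw
  have hadd := wq_add _ (notMem_of_isVec τ hv) (notMem_of_isVec τ hw) hne
  rw [← zPt_add, ← wpAt, ← wqAt, ← wqAt, ← wqAt, ← wpAt, ← wpAt] at hadd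
  have hd := delta_ne_zero τ hN
  have hsub : wpAt N τ v - wpAt N τ w ≠ 0 := sub_ne_zero.2 hne
  simp only [yAt, xAt, hadd]
  field_simp
  ring

theorem yAt_eq {u v : ℤ × ℤ} (hu : IsVec N u) (hv : IsVec N v) (hvu : Apart N v u) :
    yAt N h τ u v = -((xAt N h τ (v + u) - xAt N h τ (v - u)) *
      (xAt N h τ v - xAt N h τ u) ^ 2) := by
  have hne : (latPair τ).weierstrassP (zPt N v.1 v.2 τ) ≠
      (latPair τ).weierstrassP (zPt N u.1 u.2 τ) := wpAt_ne τ hv hu hvu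
  obtain ⟨-, h1⟩ := wp_add _ (notMem_of_isVec τ hv) (notMem_of_isVec τ hu) hne
  have hne' : (latPair τ).weierstrassP (zPt N v.1 v.2 τ) ≠
      (latPair τ).weierstrassP (-zPt N u.1 u.2 τ) := by rwa [PeriodPair.weierstrassP_neg]
  obtain ⟨-, h2⟩ := wp_add _ (notMem_of_isVec τ hv)
    (fun hm => notMem_of_isVec τ hu (neg_mem_iff.1 hm)) hne'
  rw [← sub_eq_add_neg, PeriodPair.weierstrassP_neg, PeriodPair.derivWeierstrassP_neg, ← zPt_sub]
    at h2
  rw [← zPt_add] at h1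
  rw [← wpAt, ← wpAt, ← wpAt, ← wqAt, ← wqAt] at h1 h2
  have hd := delta_ne_zero τ hN
  have hsub : wpAt N τ v - wpAt N τ u ≠ 0 := sub_ne_zero.2 hne
  simp only [yAt, xAt, h1, h2]
  field_simp
  ring

end FA.Carayol

end
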