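import Fermat.Agent.Carayol.Model.CurveDefs
import Fermat.Agent.Carayol.Curve.Lattice

/-!
# The identities between `X_v`, `Y_v`, `λ` in the field of level `N`
-/

set_option autoImplicit false
set_option linter.unusedSectionVars false
set_option linter.style.haveILetI false

noncomputable section

namespace FA.Carayol

open UpperHalfPlane hiding I
open CongruenceSubgroup FA.Level FA.Mazur.Wp FA.ModField
open scoped MatrixGroups

variable {N : ℕ}

theorem isVec_add_iff {v w : ℤ × ℤ} (h : ¬ IsVec N v) : IsVec N (v + w) ↔ IsVec N w := by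
  have h' := not_not.1 h
  simp only [IsVec, Prod.fst_add, Prod.snd_add, dvd_add_right h'.1, dvd_add_right h'.2]

theorem isVec_congr {v w : ℤ × ℤ} (h : ¬ IsVec N (v - w)) : IsVec N v ↔ IsVec N w := by
  rw [← isVec_add_iff h (w := w), sub_add_cancel]

theorem isVec_neg {v : ℤ × ℤ} : IsVec N (-v) ↔ IsVec N v := by
  simp only [IsVec, Prod.fst_neg, Prod.snd_neg, dvd_neg]

theorem apart_neg_left {v w : ℤ × ℤ} (h : Apart N v w) : Apart N (-v) w := by
  refine ⟨?_, ?_⟩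
  · rw [show -v - w = -(v + w) by ring, isVec_neg]; exact h.2
  · rw [show -v + w = -(v - w) by ring, isVec_neg]; exact h.1

variable [NeZero N] {K : Subfield ℂ}

/-- The value at a point. -/
def rEv (τ : ℍ) : rN N K →+* ℂ :=
  (Pi.evalRingHom (fun _ : ℍ => ℂ) τ).comp (holSub.subtype.comp (rN N K).subtype)

theorem rEv_apply (τ : ℍ) (a : rN N K) : rEv τ a = ((a : holSub) : ℍ → ℂ) τ := rfl

theorem rN_ext {a b : rN N K} (h : ∀ τ, rEv τ a = rEv τ b) : a = b :=
  Subtype.ext (Subtype.ext (funext h))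

instance charZero_flN : CharZero (flN N K) := by
  haveI : CharZero Mer := charZero_of_injective_ringHom merC.injective
  exact charZero_of_injective_ringHom
    (f := RingHom.id (flN N K)) Function.injective_id

variable {g : ℕ} (hN : N = 4 * g) (hζ : ∀ b : ℤ, eta N b ∈ K)
include hN

theorem g_pos : 0 < g := Nat.pos_of_ne_zero fun h0 => NeZero.ne N (by rw [hN, h0, mul_zero])

theorem not_dvd_g {k : ℤ} (hk : ¬ (4 : ℤ) ∣ k) : ¬ (N : ℤ) ∣ (g : ℤ) * k := fun hd => hk (by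
  rw [hN, Nat.cast_mul, mul_comm ((4 : ℕ) : ℤ) (g : ℤ)] at hd
  exact Int.dvd_of_mul_dvd_mul_left (Int.natCast_ne_zero.2 (g_pos hN).ne') hd)

theorem isVec_qV : IsVec N (qV g) := fun hd =>
  not_dvd_g hN (k := 1) (by norm_num) (by simpa [qV] using hd.2)

theorem apart_qV_A : Apart N (qV g) (tA (2 * g)) :=
  ⟨fun hd => not_dvd_g hN (k := 2) (by norm_num) (by simpa [qV, tA, mul_comm] using hd.1),
    fun hd => not_dvd_g hN (k := 2) (by norm_num) (by simpa [qV, tA, mul_comm] using hd.1)⟩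

theorem apart_qV_B : Apart N (qV g) (tB (2 * g)) := by
  constructor
  · intro hd
    refine not_dvd_g hN (k := -1) (by norm_num) ?_
    have h := hd.2
    simp only [qV, tB, Prod.snd_sub, Nat.cast_mul, Nat.cast_ofNat] at h
    convert h using 1
    ring
  · intro hd
    refine not_dvd_g hN (k := 3) (by norm_num) ?_
    have h := hd.2
    simp only [qV, tB, Prod.snd_add, Nat.cast_mul, Nat.cast_ofNat] at h
    convert h using 1
    ring

theorem apart_qV_C : Apart N (qV g) (tC (2 * g)) :=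
  ⟨fun hd => not_dvd_g hN (k := 2) (by norm_num) (by simpa [qV, tC, mul_comm] using hd.1),
    fun hd => not_dvd_g hN (k := 2) (by norm_num) (by simpa [qV, tC, mul_comm] using hd.1)⟩

/-- The abscissa in the ring. -/
abbrev xR (v : ℤ × ℤ) (hv : IsVec N v) : rN N K := xv (two_g hN) hζ v hv

/-- `dF` in the ring. -/
def dR : rN N K :=
  xR hN hζ (qV g) (isVec_qV hN) * (xR hN hζ (qV g) (isVec_qV hN) - 1) *
    (xR hN hζ (qV g) (isVec_qV hN) - lam (two_g hN) K hζ)

theorem rEv_xR (τ : ℍ) {v : ℤ × ℤ} (hv : IsVec N v) :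
    rEv τ (xR hN hζ v hv) = xAt N (2 * g) τ v := ratFun_eq_xAt N (2 * g) τ v

theorem rEv_lam (τ : ℍ) : rEv τ (lam (two_g hN) K hζ) = xAt N (2 * g) τ (tC (2 * g)) :=
  ratFun_eq_xAt N (2 * g) τ (tC (2 * g))

theorem rEv_dR (τ : ℍ) : rEv τ (dR hN hζ) = cubAt N (2 * g) τ (xAt N (2 * g) τ (qV g)) := by
  simp only [dR, map_mul, map_sub, map_one, rEv_xR, rEv_lam hN hζ, cubAt]

theorem xF_of_isVec {v : ℤ × ℤ} (hv : IsVec N v) : xF hN hζ v = toFl (xR hN hζ v hv) := by
  rw [xF, dif_pos hv]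

theorem xF_of_not {v : ℤ × ℤ} (hv : ¬ IsVec N v) : xF hN hζ v = 0 := by
  rw [xF, dif_neg hv]

theorem dF_eq : dF hN hζ = toFl (dR hN hζ) := by
  rw [dF, dR, xF_of_isVec hN hζ (isVec_qV hN), lamF]
  simp only [map_mul, map_sub, map_one]

theorem dF_ne_zero : dF hN hζ ≠ 0 := by
  rw [dF_eq]
  refine (map_ne_zero_iff _ toFl_injective).2 fun h0 => ?_
  have h1 := rEv_dR hN hζ UpperHalfPlane.I
  rw [h0, map_zero] at h1
  exact cubAt_ne_zero _ (two_g hN) (isVec_qV hN) (apart_qV_A hN) (apart_qV_B hN) (apart_qV_C hN)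
    h1.symm

theorem four_dF_ne_zero : 4 * dF hN hζ ≠ 0 := mul_ne_zero (by norm_num) (dF_ne_zero hN hζ)

theorem lamF_ne_zero : lamF hN hζ ≠ 0 := by
  refine (map_ne_zero_iff _ toFl_injective).2 fun h0 => ?_
  exact lamFun_ne_zero (two_g hN) UpperHalfPlane.I
    (congrFun (congrArg (fun x : rN N K => ((x : holSub) : ℍ → ℂ)) h0) UpperHalfPlane.I)

theorem lamF_ne_one : lamF hN hζ ≠ 1 := by
  intro h
  rw [lamF, ← map_one (toFl (N := N) (K := K))] at h
  exact lamFun_ne_one (two_g hN) UpperHalfPlane.I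
    (congrFun (congrArg (fun x : rN N K => ((x : holSub) : ℍ → ℂ)) (toFl_injective h))
      UpperHalfPlane.I)

theorem xF_congr {v w : ℤ × ℤ} (h : ¬ IsVec N (v - w)) : xF hN hζ v = xF hN hζ w := by
  by_cases hv : IsVec N v
  · have hw := (isVec_congr h).1 hv
    rw [xF_of_isVec hN hζ hv, xF_of_isVec hN hζ hw]
    exact congrArg toFl (xv_congr (two_g hN) hζ hv hw (not_not.1 h).1 (not_not.1 h).2)
  · rw [xF_of_not hN hζ hv, xF_of_not hN hζ fun hw => hv ((isVec_congr h).2 hw)]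

theorem xF_neg (v : ℤ × ℤ) : xF hN hζ (-v) = xF hN hζ v := by
  by_cases hv : IsVec N v
  · rw [xF_of_isVec hN hζ hv, xF_of_isVec hN hζ (isVec_neg.2 hv)]
    refine congrArg toFl (rN_ext fun τ => ?_)
    rw [rEv_xR, rEv_xR, xAt_neg]
  · rw [xF_of_not hN hζ hv, xF_of_not hN hζ fun h => hv (isVec_neg.1 h)]

theorem xF_ne {v w : ℤ × ℤ} (hv : IsVec N v) (hw : IsVec N w) (h : Apart N v w) :
    xF hN hζ v ≠ xF hN hζ w := by
  rw [xF_of_isVec hN hζ hv, xF_of_isVec hN hζ hw]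
  intro he
  have h1 := congrArg (rEv UpperHalfPlane.I) (toFl_injective he)
  rw [rEv_xR, rEv_xR, xAt, xAt, div_left_inj' (delta_ne_zero _ (two_g hN)), sub_left_inj] at h1
  exact wpAt_ne _ hv hw h h1

theorem yF_of_not {v : ℤ × ℤ} (hv : ¬ IsVec N v) : yF hN hζ v = 0 := by
  have h1 : IsVec N (v - qV g) := by
    rw [sub_eq_add_neg, isVec_add_iff hv, isVec_neg]; exact isVec_qV hN
  have h2 : IsVec N (v + qV g) := (isVec_add_iff hv).2 (isVec_qV hN)
  have e1 : xF hN hζ (v + qV g) = xF hN hζ (qV g) :=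
    xF_congr hN hζ (by rwa [add_sub_cancel_right])
  have e2 : xF hN hζ (v - qV g) = xF hN hζ (qV g) := by
    rw [← xF_neg hN hζ (qV g)]
    exact xF_congr hN hζ (by rwa [sub_neg_eq_add, sub_add_cancel])
  rw [yF, if_pos h1, if_pos h2, e1, e2, sub_self, zero_mul, neg_zero, zero_div]

theorem exists_yR {v : ℤ × ℤ} (hv : IsVec N v) : ∃ r : rN N K,
    toFl r = 4 * dF hN hζ * yF hN hζ v ∧ ∀ τ, rEv τ r = yAt N (2 * g) τ (qV g) v := by
  have hq := isVec_qV hN
  by_cases h1 : IsVec N (v - qV g)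
  · by_cases h2 : IsVec N (v + qV g)
    · refine ⟨-((xR hN hζ _ h2 - xR hN hζ _ h1) * (xR hN hζ v hv - xR hN hζ _ hq) ^ 2), ?_,
        fun τ => ?_⟩
      · rw [yF, if_pos h1, if_pos h2, mul_div_cancel₀ _ (four_dF_ne_zero hN hζ)]
        simp only [map_neg, map_mul, map_sub, map_pow, xF_of_isVec hN hζ h1, xF_of_isVec hN hζ h2,
          xF_of_isVec hN hζ hv, xF_of_isVec hN hζ hq]
      · rw [yAt_eq τ (two_g hN) hq hv ⟨h1, h2⟩]
        simp only [map_neg, map_mul, map_sub, map_pow, rEv_xR]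
    · refine ⟨-4 * dR hN hζ, ?_, fun τ => ?_⟩
      · rw [yF, if_pos h1, if_neg h2, dF_eq, map_mul, map_neg, map_ofNat]; ring
      · have e := (at_congr (N := N) τ (v := v) (w := -qV g)
          (by simpa using (not_not.1 h2).1) (by simpa using (not_not.1 h2).2)).2
        rw [map_mul, map_neg, map_ofNat, rEv_dR, yAt, e, ← yAt, yAt_neg,
          yAt_self τ (two_g hN) hq]
        ring
  · refine ⟨4 * dR hN hζ, ?_, fun τ => ?_⟩
    · rw [yF, if_neg h1, dF_eq, map_mul, map_ofNat]; ring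
    · have e := (at_congr (N := N) τ (v := v) (w := qV g) (not_not.1 h1).1 (not_not.1 h1).2).2
      rw [map_mul, map_ofNat, rEv_dR, yAt, e, ← yAt, yAt_self τ (two_g hN) hq]

theorem yF_congr {v w : ℤ × ℤ} (h : ¬ IsVec N (v - w)) : yF hN hζ v = yF hN hζ w := by
  by_cases hv : IsVec N v
  · obtain ⟨r, hr, hr'⟩ := exists_yR hN hζ hv
    obtain ⟨r', hs, hs'⟩ := exists_yR hN hζ ((isVec_congr h).1 hv)
    refine mul_left_cancel₀ (four_dF_ne_zero hN hζ) ?_
    rw [← hr, ← hs]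
    refine congrArg toFl (rN_ext fun τ => ?_)
    rw [hr', hs', yAt, yAt, (at_congr τ (not_not.1 h).1 (not_not.1 h).2).2]
  · rw [yF_of_not hN hζ hv, yF_of_not hN hζ fun hw => hv ((isVec_congr h).2 hw)]

theorem yF_neg (v : ℤ × ℤ) : yF hN hζ (-v) = -yF hN hζ v := by
  by_cases hv : IsVec N v
  · obtain ⟨r, hr, hr'⟩ := exists_yR hN hζ hv
    obtain ⟨r', hs, hs'⟩ := exists_yR hN hζ (isVec_neg.2 hv)
    refine mul_left_cancel₀ (four_dF_ne_zero hN hζ) ?_
    rw [mul_neg, ← hr, ← hs, ← map_neg]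
    refine congrArg toFl (rN_ext fun τ => ?_)
    rw [map_neg, hr', hs', yAt_neg]
  · rw [yF_of_not hN hζ hv, yF_of_not hN hζ fun h => hv (isVec_neg.1 h), neg_zero]

/-- The equation. -/
theorem yF_sq {v : ℤ × ℤ} (hv : IsVec N v) : dF hN hζ * yF hN hζ v ^ 2 =
    xF hN hζ v * (xF hN hζ v - 1) * (xF hN hζ v - lamF hN hζ) := by
  obtain ⟨r, hr, hr'⟩ := exists_yR hN hζ hv
  have h1 : r ^ 2 = 16 * dR hN hζ * (xR hN hζ v hv * (xR hN hζ v hv - 1) *
      (xR hN hζ v hv - lam (two_g hN) K hζ)) := rN_ext fun τ => by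
    simp only [map_pow, map_mul, map_sub, map_one, map_ofNat, hr', rEv_dR, rEv_xR, rEv_lam hN hζ]
    rw [yAt_sq τ (two_g hN) (isVec_qV hN) hv]
    rfl
  have h2 := congrArg (toFl (N := N) (K := K)) h1
  simp only [map_pow, map_mul, map_sub, map_one, map_ofNat, ← dF_eq, ← xF_of_isVec hN hζ hv, hr]
    at h2
  refine mul_left_cancel₀ (mul_ne_zero (show (16 : flN N K) ≠ 0 by norm_num) (dF_ne_zero hN hζ)) ?_
  rw [lamF]
  linear_combination h2

/-- The abscissa of a sum. -/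
theorem xF_add {v w : ℤ × ℤ} (hv : IsVec N v) (hw : IsVec N w) (h : Apart N v w) :
    dF hN hζ * (yF hN hζ v - yF hN hζ w) ^ 2 = (xF hN hζ v - xF hN hζ w) ^ 2 *
      (xF hN hζ (v + w) + xF hN hζ v + xF hN hζ w - 1 - lamF hN hζ) := by
  obtain ⟨r, hr, hr'⟩ := exists_yR hN hζ hv
  obtain ⟨r', hs, hs'⟩ := exists_yR hN hζ hw
  have h1 : (r - r') ^ 2 = 16 * dR hN hζ * (xR hN hζ v hv - xR hN hζ w hw) ^ 2 *
      (xR hN hζ _ h.2 + xR hN hζ v hv + xR hN hζ w hw - 1 - lam (two_g hN) K hζ) :=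
    rN_ext fun τ => by
    simp only [map_pow, map_mul, map_sub, map_add, map_one, map_ofNat, hr', hs', rEv_dR, rEv_xR,
      rEv_lam hN hζ]
    exact xAt_add τ (two_g hN) (isVec_qV hN) hv hw h
  have h2 := congrArg (toFl (N := N) (K := K)) h1
  simp only [map_pow, map_mul, map_sub, map_add, map_one, map_ofNat, ← dF_eq,
    ← xF_of_isVec hN hζ hv, ← xF_of_isVec hN hζ hw, ← xF_of_isVec hN hζ h.2, hr, hs] at h2
  refine mul_left_cancel₀ (mul_ne_zero (show (16 : flN N K) ≠ 0 by norm_num) (dF_ne_zero hN hζ)) ?_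
  rw [lamF]
  linear_combination h2

/-- The ordinate of a sum. -/
theorem yF_add {v w : ℤ × ℤ} (hv : IsVec N v) (hw : IsVec N w) (h : Apart N v w) :
    (yF hN hζ (v + w) + yF hN hζ v) * (xF hN hζ v - xF hN hζ w) =
      -(yF hN hζ v - yF hN hζ w) * (xF hN hζ (v + w) - xF hN hζ v) := by
  obtain ⟨r, hr, hr'⟩ := exists_yR hN hζ hv
  obtain ⟨r', hs, hs'⟩ := exists_yR hN hζ hw
  obtain ⟨r'', ht, ht'⟩ := exists_yR hN hζ (v := v + w) h.2
  have h1 : (r'' + r) * (xR hN hζ v hv - xR hN hζ w hw) =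
      -(r - r') * (xR hN hζ _ h.2 - xR hN hζ v hv) := rN_ext fun τ => by
    simp only [map_mul, map_sub, map_add, map_neg, hr', hs', ht', rEv_xR]
    exact yAt_add τ (two_g hN) hv hw h
  have h2 := congrArg (toFl (N := N) (K := K)) h1
  simp only [map_mul, map_sub, map_add, map_neg, hr, hs, ht, ← xF_of_isVec hN hζ hv,
    ← xF_of_isVec hN hζ hw, ← xF_of_isVec hN hζ h.2] at h2
  refine mul_left_cancel₀ (four_dF_ne_zero hN hζ) ?_
  linear_combination h2

end FA.Carayol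

end
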