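import Fermat.Agent.Local.Basic

/-!
# The parameter `z = -x / y` near the origin of `y² = x³ + a₂ x² + a₄ x`

On the kernel of reduction `z` is additive up to terms smaller than the summands: the sum of the
`z`-coordinates of three collinear points is small.
-/

set_option autoImplicit false

namespace FA.Carayol

open WeierstrassCurve FA.Local

variable {L Γ : Type*} [Field L] [LinearOrderedCommGroupWithZero Γ] {v : Valuation L Γ}
  {W : Affine L}

/-- The parameter at the origin of a point. -/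
def zOf : W.Point → L
  | .zero => 0
  | .some x y _ => -x / y

@[simp] theorem zOf_zero : zOf (0 : W.Point) = 0 := rfl

@[simp] theorem zOf_some {x y : L} (h : W.Nonsingular x y) :
    zOf (Affine.Point.some x y h : W.Point) = -x / y := rfl

/-- The parameters of a point of the kernel of reduction. -/
theorem zu_bounds (hI : IntCoeff v W) {x y : L} (h : W.Nonsingular x y) (hx : 1 < v x) :
    y ≠ 0 ∧ v (-x / y) < 1 ∧ 0 < v (-x / y) ∧ v (-1 / y) = v (-x / y) ^ 3 := by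
  obtain ⟨hxy, hsq⟩ := large_of_one_lt hI h.1 hx
  have hy : 0 < v y := zero_le.trans_lt hxy
  have hx0 : 0 < v x := zero_lt_one.trans hx
  have e : v (-x / y) = v x / v y := by rw [map_div₀, v.map_neg]
  refine ⟨v.pos_iff.1 hy, ?_, ?_, ?_⟩
  · rw [e, div_lt_one₀ hy]; exact hxy
  · rw [e]; exact div_pos hx0 hy
  · rw [e, div_pow, map_div₀, v.map_neg, map_one, ← hsq, pow_succ (v y) 2, ← div_div,
      div_self (pow_ne_zero 2 hy.ne')]

/-- **Collinear points near the origin.** -/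
theorem zsum_collinear (hI : IntCoeff v W) {l n x₁ x₂ x₃ : L} (hn : 1 ≤ v n)
    (hl : v l < v n) (d₁ : l * x₁ + n ≠ 0) (d₂ : l * x₂ + n ≠ 0) (d₃ : l * x₃ + n ≠ 0)
    (e₁ : x₁ + x₂ + x₃ = l ^ 2 - W.a₂) (e₂ : x₁ * x₂ + x₁ * x₃ + x₂ * x₃ = W.a₄ - 2 * l * n)
    (e₃ : x₁ * x₂ * x₃ = n ^ 2) :
    v (x₁ / (l * x₁ + n) + x₂ / (l * x₂ + n) + x₃ / (l * x₃ + n)) * v n ≤ 1 := by
  have hn0 : n ≠ 0 := v.pos_iff.1 (zero_lt_one.trans_le hn)
  set T := x₁ / (l * x₁ + n) + x₂ / (l * x₂ + n) + x₃ / (l * x₃ + n)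
  have hT : T * ((l * x₁ + n) * (l * x₂ + n) * (l * x₃ + n)) =
      3 * l ^ 2 * (x₁ * x₂ * x₃) + 2 * l * n * (x₁ * x₂ + x₁ * x₃ + x₂ * x₃) +
        n ^ 2 * (x₁ + x₂ + x₃) := by
    have aux : ∀ a b c A B C : L, A ≠ 0 → B ≠ 0 → C ≠ 0 →
        (a / A + b / B + c / C) * (A * B * C) = a * B * C + b * A * C + c * A * B := by
      intros a b c A B C hA hB hC
      field_simp
    simp only [T]
    rw [aux _ _ _ _ _ _ d₁ d₂ d₃]
    ring
  have key : T * (n ^ 2 + (W.a₄ * l ^ 2 - W.a₂ * l * n)) = 2 * W.a₄ * l - W.a₂ * n := by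
    refine mul_left_cancel₀ hn0 ?_
    rw [show (l * x₁ + n) * (l * x₂ + n) * (l * x₃ + n) = l ^ 3 * (x₁ * x₂ * x₃) +
      l ^ 2 * n * (x₁ * x₂ + x₁ * x₃ + x₂ * x₃) + l * n ^ 2 * (x₁ + x₂ + x₃) + n ^ 3 by ring,
      e₁, e₂, e₃] at hT
    linear_combination hT
  have hden : v (n ^ 2 + (W.a₄ * l ^ 2 - W.a₂ * l * n)) = v n ^ 2 := by
    rw [v.map_add_eq_of_lt_left, map_pow]
    rw [map_pow]
    refine v.map_sub_lt ?_ ?_
    · rw [map_mul, map_pow]
      exact (mul_le_of_le_one_left' hI.h₄).trans_lt (pow_lt_pow_left₀ hl zero_le two_ne_zero)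
    · rw [map_mul, map_mul, sq]
      exact mul_lt_mul_of_pos_right ((mul_le_of_le_one_left' hI.h₂).trans_lt hl)
        (zero_lt_one.trans_le hn)
  have hnum : v (2 * W.a₄ * l - W.a₂ * n) ≤ v n := by
    refine v.map_sub_le ?_ ?_
    · rw [map_mul]
      exact (mul_le_of_le_one_left' (map_mul_le_one le_two hI.h₄)).trans hl.le
    · rw [map_mul]; exact mul_le_of_le_one_left' hI.h₂
  have h1 := congrArg v key
  rw [map_mul, hden, sq, ← mul_assoc] at h1
  have h2 : v T * v n * v n ≤ 1 * v n := by rw [h1, one_mul]; exact hnum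
  exact le_of_mul_le_mul_right h2 (zero_lt_one.trans_le hn)

variable [DecidableEq L]

/-- **The parameter is additive to first order.** -/
theorem zOf_add_lt (hI : IntCoeff v W) (h1 : W.a₁ = 0) (h3 : W.a₃ = 0) (h6 : W.a₆ = 0)
    {P Q : W.Point} (hP : E1 v W P) (hQ : E1 v W Q) (hPQ : P ≠ 0 ∨ Q ≠ 0) :
    v (zOf (P + Q) - zOf P - zOf Q) < max (v (zOf P)) (v (zOf Q)) := by
  rcases P with _ | ⟨x₁, y₁, p₁⟩
  · rcases Q with _ | ⟨x₂, y₂, p₂⟩
    · exact absurd rfl (hPQ.resolve_left (fun h => h rfl))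
    · rw [← Affine.Point.zero_def, zero_add, zOf_zero, sub_zero, sub_self, map_zero]
      exact lt_max_of_lt_right (zu_bounds hI p₂ hQ).2.2.1
  rcases Q with _ | ⟨x₂, y₂, p₂⟩
  · rw [← Affine.Point.zero_def, add_zero, zOf_zero, sub_zero, sub_self, map_zero]
    exact lt_max_of_lt_left (zu_bounds hI p₁ hP).2.2.1
  obtain ⟨hy₁, hz₁, hz₁p, hu₁⟩ := zu_bounds hI p₁ hP
  obtain ⟨hy₂, hz₂, hz₂p, hu₂⟩ := zu_bounds hI p₂ hQ
  simp only [zOf_some]
  set M := max (v (-x₁ / y₁)) (v (-x₂ / y₂)) with hM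
  by_cases hxy : x₁ = x₂ ∧ y₁ = W.negY x₂ y₂
  · rw [Affine.Point.add_of_Y_eq hxy.1 hxy.2, zOf_zero]
    have e : -x₂ / y₂ = -(-x₁ / y₁) := by
      have hy : y₁ = -y₂ := by rw [hxy.2]; simp [Affine.negY, h1, h3]
      rw [hxy.1, hy, div_neg, neg_neg]
    rw [e, zero_sub, sub_self, map_zero]
    exact lt_max_of_lt_left hz₁p
  have hR := e1_add hI (P := Affine.Point.some x₁ y₁ p₁) (Q := .some x₂ y₂ p₂) hP hQ
  have p₃ := Affine.nonsingular_add p₁ p₂ hxy
  rw [Affine.Point.add_some hxy, e1_some] at hR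
  rw [Affine.Point.add_some hxy, zOf_some]
  obtain ⟨hy₃, -, -, -⟩ := zu_bounds hI p₃ hR
  set l := W.slope x₁ x₂ y₁ y₂ with hl
  set n := y₁ - l * x₁ with hn
  have E₁ := (Affine.equation_iff ..).1 p₁.1
  have E₂ := (Affine.equation_iff ..).1 p₂.1
  simp only [h1, h3, h6, zero_mul, add_zero] at E₁ E₂
  -- the line and the derivative relation
  have hline : y₂ = l * x₂ + n ∧
      l * (l * (x₁ + x₂) + 2 * n) = x₁ ^ 2 + x₁ * x₂ + x₂ ^ 2 + W.a₂ * (x₁ + x₂) + W.a₄ ∧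
      l * (1 - W.a₂ * (-x₁ / y₁) ^ 2 - W.a₄ * (-x₂ / y₂) * (-1 / y₁ + -1 / y₂)) +
        n * ((-x₁ / y₁) ^ 2 + (-x₁ / y₁) * (-x₂ / y₂) + (-x₂ / y₂) ^ 2 +
          W.a₂ * (-1 / y₂) * (-x₁ / y₁ + -x₂ / y₂) + W.a₄ * (-1 / y₁) ^ 2) = 0 := by
    by_cases hx : x₁ = x₂
    · have hy' : y₁ ≠ W.negY x₂ y₂ := fun h => hxy ⟨hx, h⟩
      have hyy := Affine.Y_eq_of_Y_ne p₁.1 p₂.1 hx hy'
      subst hx hyy
      have h2y : 2 * y₁ ≠ 0 := by
        intro h; apply hy'; simp only [Affine.negY, h1, h3, zero_mul, sub_zero]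
        linear_combination h
      have hl2 : l * (2 * y₁) = 3 * x₁ ^ 2 + 2 * W.a₂ * x₁ + W.a₄ := by
        rw [hl, Affine.slope_of_Y_ne rfl hy']
        simp only [Affine.negY, h1, h3, zero_mul, sub_zero, sub_neg_eq_add, ← two_mul]
        rw [div_mul_cancel₀ _ h2y]
      have hAB : l * (y₁ ^ 2 - W.a₂ * x₁ ^ 2 - 2 * W.a₄ * x₁) +
          n * (3 * x₁ ^ 2 + 2 * W.a₂ * x₁ + W.a₄) = 0 := by
        refine mul_left_cancel₀ h2y ?_
        rw [hn]
        linear_combination (y₁ ^ 2 - W.a₂ * x₁ ^ 2 - 2 * W.a₄ * x₁ -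
          x₁ * (3 * x₁ ^ 2 + 2 * W.a₂ * x₁ + W.a₄)) * hl2 +
          (3 * (3 * x₁ ^ 2 + 2 * W.a₂ * x₁ + W.a₄)) * E₁
      refine ⟨by rw [hn]; ring, by rw [hn]; linear_combination hl2, ?_⟩
      field_simp
      linear_combination hAB
    · have hs : l * (x₁ - x₂) = y₁ - y₂ := by
        rw [hl, Affine.slope_of_X_ne hx, div_mul_cancel₀ _ (sub_ne_zero.2 hx)]
      refine ⟨by rw [hn]; linear_combination hs, ?_, ?_⟩
      · refine mul_right_cancel₀ (sub_ne_zero.2 hx) ?_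
        rw [hn]
        linear_combination E₁ - E₂ + (l * (x₂ - x₁) + y₁ + y₂) * hs
      · have hz : -x₁ / y₁ ≠ -x₂ / y₂ ∨ -1 / y₁ ≠ -1 / y₂ := by
          by_contra hc
          push Not at hc
          have hy : y₁ = y₂ := by
            have := hc.2
            field_simp at this
            linear_combination this
          rw [hy, div_left_inj' hy₂, neg_inj] at hc
          exact hx hc.1
        generalize hz₁d : -x₁ / y₁ = z₁ at hz ⊢
        generalize hz₂d : -x₂ / y₂ = z₂ at hz ⊢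
        generalize hu₁d : -1 / y₁ = u₁ at hz ⊢
        generalize hu₂d : -1 / y₂ = u₂ at hz ⊢
        have R₁ : l * z₁ + n * u₁ + 1 = 0 := by
          rw [← hz₁d, ← hu₁d, hn]; field_simp; ring
        have R₂ : l * z₂ + n * u₂ + 1 = 0 := by
          rw [← hz₂d, ← hu₂d, hn]; field_simp; linear_combination hs
        have C₁ : u₁ = z₁ ^ 3 + W.a₂ * z₁ ^ 2 * u₁ + W.a₄ * z₁ * u₁ ^ 2 := by
          rw [← hz₁d, ← hu₁d]; field_simp; linear_combination -E₁
        have C₂ : u₂ = z₂ ^ 3 + W.a₂ * z₂ ^ 2 * u₂ + W.a₄ * z₂ * u₂ ^ 2 := by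
          rw [← hz₂d, ← hu₂d]; field_simp; linear_combination -E₂
        set A := z₁ ^ 2 + z₁ * z₂ + z₂ ^ 2 + W.a₂ * u₂ * (z₁ + z₂) + W.a₄ * u₁ ^ 2
        set B := 1 - W.a₂ * z₁ ^ 2 - W.a₄ * z₂ * (u₁ + u₂)
        have hAB : (u₁ - u₂) * B = (z₁ - z₂) * A := by
          simp only [A, B]; linear_combination C₁ - C₂
        have hprod : (z₁ - z₂) * (l * B + n * A) = 0 := by
          linear_combination B * R₁ - B * R₂ - n * hAB
        rcases mul_eq_zero.1 hprod with h0 | h0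
        · exfalso
          rw [h0, zero_mul, mul_eq_zero] at hAB
          rcases hAB with h' | h'
          · exact hz.elim (fun h'' => h'' (sub_eq_zero.1 h0)) (fun h'' => h'' (sub_eq_zero.1 h'))
          · -- `B` is a unit
            have hB : v B = 1 := by
              simp only [B, ← hz₁d, ← hz₂d, ← hu₁d, ← hu₂d, sub_sub]
              refine eq_one_of_sub_lt v.map_one ?_
              rw [sub_sub_cancel_left, v.map_neg]
              refine v.map_add_lt (map_mul_lt_one hI.h₂ ?_) ?_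
              · rw [map_pow]; exact pow_lt_one₀ zero_le hz₁ two_ne_zero
              · refine map_mul_lt_one' (map_mul_lt_one hI.h₄ hz₂) (v.map_add_le ?_ ?_)
                · rw [hu₁]; exact pow_le_one₀ zero_le hz₁.le
                · rw [hu₂]; exact pow_le_one₀ zero_le hz₂.le
            rw [h', map_zero] at hB
            exact zero_ne_one hB
        · exact h0
  obtain ⟨hy₂l, hrel, hAB⟩ := hline
  set z₁ := -x₁ / y₁ with hz₁d
  set z₂ := -x₂ / y₂
  set u₁ := -1 / y₁ with hu₁d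
  set u₂ := -1 / y₂
  set A := z₁ ^ 2 + z₁ * z₂ + z₂ ^ 2 + W.a₂ * u₂ * (z₁ + z₂) + W.a₄ * u₁ ^ 2
  set B := 1 - W.a₂ * z₁ ^ 2 - W.a₄ * z₂ * (u₁ + u₂) with hBd
  have hM0 : 0 < M := lt_max_of_lt_left hz₁p
  have hM1 : M < 1 := max_lt hz₁ hz₂
  have b1 : v z₁ ≤ M := le_max_left _ _
  have b2 : v z₂ ≤ M := le_max_right _ _
  have c1 : v u₁ ≤ M ^ 3 := by rw [hu₁]; exact pow_le_pow_left₀ zero_le b1 3
  have c2 : v u₂ ≤ M ^ 3 := by rw [hu₂]; exact pow_le_pow_left₀ zero_le b2 3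
  have q2 : ∀ a b : L, v a ≤ M → v b ≤ M → v (a * b) ≤ M ^ 2 := fun a b ha hb => by
    rw [map_mul, sq]; exact mul_le_mul' ha hb
  have h32 : M ^ 3 ≤ M := pow_le_of_le_one zero_le hM1.le (by norm_num)
  have hA : v A ≤ M ^ 2 := by
    refine v.map_add_le (v.map_add_le (v.map_add_le (v.map_add_le ?_ (q2 _ _ b1 b2)) ?_) ?_) ?_
    · rw [sq]; exact q2 _ _ b1 b1
    · rw [sq]; exact q2 _ _ b2 b2
    · rw [mul_assoc, map_mul]
      exact (mul_le_of_le_one_left' hI.h₂).trans (q2 _ _ (c2.trans h32) (v.map_add_le b1 b2))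
    · rw [map_mul, sq]
      exact (mul_le_of_le_one_left' hI.h₄).trans (q2 _ _ (c1.trans h32) (c1.trans h32))
  have hB : v B = 1 := by
    refine eq_one_of_sub_lt v.map_one ?_
    rw [show B - 1 = -(W.a₂ * z₁ ^ 2 + W.a₄ * z₂ * (u₁ + u₂)) by rw [hBd]; ring, v.map_neg]
    refine v.map_add_lt (map_mul_lt_one hI.h₂ ?_) (map_mul_lt_one' (map_mul_lt_one hI.h₄ hz₂)
      ((v.map_add_le c1 c2).trans (h32.trans hM1.le)))
    rw [map_pow]; exact pow_lt_one₀ zero_le hz₁ two_ne_zero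
  have R₁ : l * z₁ + n * u₁ + 1 = 0 := by
    rw [hz₁d, hu₁d, hn]; field_simp; ring
  have hBn : B = n * (A * z₁ - B * u₁) := by
    linear_combination B * R₁ - z₁ * hAB
  have hbig : 1 ≤ v n * M ^ 3 := by
    rw [← hB]
    conv_lhs => rw [hBn]
    rw [map_mul]
    refine mul_le_mul' le_rfl (v.map_sub_le ?_ ?_)
    · rw [map_mul, pow_succ M 2]; exact mul_le_mul' hA b1
    · rw [map_mul, hB, one_mul]; exact c1
  have hn1 : 1 ≤ v n := hbig.trans (mul_le_of_le_one_right' (pow_le_one₀ zero_le hM1.le))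
  have hln : v l < v n := by
    have e : l * B = -(n * A) := by linear_combination hAB
    have h := congrArg v e
    rw [map_mul, hB, mul_one, v.map_neg, map_mul] at h
    rw [h]
    exact mul_lt_of_lt_one_right (zero_lt_one.trans_le hn1)
      (hA.trans_lt (pow_lt_one₀ zero_le hM1 two_ne_zero))
  set x₃ := W.addX x₁ x₂ l with hx₃
  have hx₃' : x₃ = l ^ 2 - W.a₂ - x₁ - x₂ := by simp [hx₃, Affine.addX, h1]
  have hy₃' : W.addY x₁ x₂ y₁ l = -(l * x₃ + n) := by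
    simp only [Affine.addY, Affine.negY, Affine.negAddY, ← hx₃, h1, h3, hn]
    ring
  rw [hy₃'] at hy₃ ⊢
  have hy₁l : y₁ = l * x₁ + n := by rw [hn]; ring
  have v1 : x₁ + x₂ + x₃ = l ^ 2 - W.a₂ := by rw [hx₃']; ring
  have v2 : x₁ * x₂ + x₁ * x₃ + x₂ * x₃ = W.a₄ - 2 * l * n := by
    rw [hx₃']; linear_combination hrel
  have v3 : x₁ * x₂ * x₃ = n ^ 2 := by
    rw [hy₁l] at E₁
    linear_combination -E₁ + x₁ * v2 - x₁ ^ 2 * v1
  have hsum := zsum_collinear hI hn1 hln (hy₁l ▸ hy₁) (hy₂l ▸ hy₂) (neg_ne_zero.1 hy₃) v1 v2 v3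
  rw [← hy₁l, ← hy₂l] at hsum
  have e : -x₃ / -(l * x₃ + n) - z₁ - z₂ = x₁ / y₁ + x₂ / y₂ + x₃ / (l * x₃ + n) := by
    rw [neg_div_neg_eq]
    simp only [z₁, z₂, neg_div]
    ring
  rw [e]
  set T := x₁ / y₁ + x₂ / y₂ + x₃ / (l * x₃ + n)
  have h2 : v T * v n ≤ M ^ 3 * v n := hsum.trans (by rwa [mul_comm])
  exact (le_of_mul_le_mul_right h2 (zero_lt_one.trans_le hn1)).trans_lt
    (pow_lt_self_of_lt_one₀ hM0 hM1 (by norm_num))

end FA.Carayol
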