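import Fermat.Agent.Carayol.Curve.Field

/-!
# The vectors modulo `N` form a group of points of `y² = x (x - 1) (x - λ)`
-/

set_option autoImplicit false
set_option linter.unusedSectionVars false
set_option linter.style.haveILetI false

noncomputable section

namespace FA.Carayol

open UpperHalfPlane hiding I
open WeierstrassCurve FA.Level FA.Mazur.Wp FA.ModField
open scoped MatrixGroups

theorem legendre_Δ {R : Type*} [CommRing R] (l : R) :
    (legendre l).Δ = 16 * l ^ 2 * (l - 1) ^ 2 := by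
  simp only [legendre, WeierstrassCurve.Δ, b₂, b₄, b₆, b₈]
  ring

theorem legendre_equation_iff {R : Type*} [CommRing R] (l x y : R) :
    (legendre l).toAffine.Equation x y ↔ y ^ 2 = x * (x - 1) * (x - l) := by
  rw [Affine.equation_iff]
  simp only [legendre]
  constructor <;> intro h <;> linear_combination h

theorem legendre_mapC {R S : Type*} [CommRing R] [CommRing S] (f : R →+* S) (l : R) :
    (legendre l).map f = legendre (f l) := by
  simp [legendre, WeierstrassCurve.map]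

variable {N g : ℕ} (hN : N = 4 * g) [NeZero N] {K : Subfield ℂ} (hζ : ∀ b : ℤ, eta N b ∈ K)

include hN in
/-- An auxiliary vector. -/
theorem exists_aux_vec {v : ℤ × ℤ} : ∃ u, IsVec N u ∧ IsVec N (u + u) ∧ Apart N v u := by
  have hg := g_pos hN
  have h1 : ¬ (N : ℤ) ∣ 1 := fun hd => absurd (Int.le_of_dvd one_pos hd) (by omega)
  have h2 : ¬ (N : ℤ) ∣ 1 + 1 := fun hd => absurd (Int.le_of_dvd (by norm_num) hd) (by omega)
  by_cases ha : Apart N v (1, 0)
  · exact ⟨(1, 0), fun hd => h1 hd.1, fun hd => h2 hd.1, ha⟩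
  · refine ⟨(0, 1), fun hd => h1 hd.2, fun hd => h2 hd.2, ?_⟩
    have hv2 : (N : ℤ) ∣ v.2 := by
      rw [Apart, not_and_or, IsVec, IsVec, not_not, not_not] at ha
      rcases ha with ha | ha
      · simpa using ha.2
      · simpa using ha.2
    constructor
    · intro hd
      exact h1 (by simpa using dvd_sub hv2 hd.2)
    · intro hd
      exact h1 (by simpa using dvd_sub hd.2 hv2)

section point

variable {Ω : Type} [Field Ω] (ι : flN N K →+* Ω)

theorem legendre_Δ_ne_zero : (legendre (ι (lamF hN hζ))).Δ ≠ 0 := by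
  haveI : CharZero Ω := charZero_of_injective_ringHom ι.injective
  rw [legendre_Δ]
  refine mul_ne_zero (mul_ne_zero (by norm_num) (pow_ne_zero 2 ?_)) (pow_ne_zero 2 ?_)
  · exact (map_ne_zero ι).2 (lamF_ne_zero hN hζ)
  · rw [← map_one ι, ← map_sub]
    exact (map_ne_zero ι).2 (sub_ne_zero.2 (lamF_ne_one hN hζ))

variable {s : Ω} (hs : s ^ 2 = ι (dF hN hζ))
include hs

theorem nonsingular_vec {v : ℤ × ℤ} (hv : IsVec N v) :
    (legendre (ι (lamF hN hζ))).toAffine.Nonsingular (ι (xF hN hζ v)) (s * ι (yF hN hζ v)) := by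
  refine (Affine.equation_iff_nonsingular_of_Δ_ne_zero (legendre_Δ_ne_zero hN hζ ι)).1
    ((legendre_equation_iff _ _ _).2 ?_)
  rw [mul_pow, hs, ← map_one ι]
  simp only [← map_pow, ← map_mul, ← map_sub]
  exact congrArg ι (yF_sq hN hζ hv)

open Classical in
/-- The point of a vector. -/
def vecPt (v : ℤ × ℤ) : (legendre (ι (lamF hN hζ))).toAffine.Point :=
  if hv : IsVec N v then .some _ _ (nonsingular_vec hN hζ ι hs hv) else 0

theorem vecPt_of_isVec {v : ℤ × ℤ} (hv : IsVec N v) :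
    vecPt hN hζ ι hs v = .some _ _ (nonsingular_vec hN hζ ι hs hv) := dif_pos hv

theorem vecPt_of_not {v : ℤ × ℤ} (hv : ¬ IsVec N v) : vecPt hN hζ ι hs v = 0 := dif_neg hv

theorem vecPt_eq_zero_iff (v : ℤ × ℤ) : vecPt hN hζ ι hs v = 0 ↔ ¬ IsVec N v := by
  refine ⟨fun h hv => ?_, vecPt_of_not hN hζ ι hs⟩
  rw [vecPt_of_isVec hN hζ ι hs hv] at h
  exact Affine.Point.some_ne_zero _ h

theorem vecPt_congr {v w : ℤ × ℤ} (h : ¬ IsVec N (v - w)) :
    vecPt hN hζ ι hs v = vecPt hN hζ ι hs w := by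
  by_cases hv : IsVec N v
  · rw [vecPt_of_isVec hN hζ ι hs hv, vecPt_of_isVec hN hζ ι hs ((isVec_congr h).1 hv)]
    simp only [xF_congr hN hζ h, yF_congr hN hζ h]
  · rw [vecPt_of_not hN hζ ι hs hv,
      vecPt_of_not hN hζ ι hs fun hw => hv ((isVec_congr h).2 hw)]

theorem vecPt_neg (v : ℤ × ℤ) : vecPt hN hζ ι hs (-v) = -vecPt hN hζ ι hs v := by
  by_cases hv : IsVec N v
  · rw [vecPt_of_isVec hN hζ ι hs hv, vecPt_of_isVec hN hζ ι hs (isVec_neg.2 hv),
      Affine.Point.neg_some]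
    simp only [xF_neg, yF_neg, Affine.negY, legendre, map_neg, zero_mul, sub_zero, mul_neg]
  · rw [vecPt_of_not hN hζ ι hs hv, vecPt_of_not hN hζ ι hs fun h => hv (isVec_neg.1 h)]
    rfl

variable [DecidableEq Ω]

theorem vecPt_add_apart {v w : ℤ × ℤ} (hv : IsVec N v) (hw : IsVec N w) (h : Apart N v w) :
    vecPt hN hζ ι hs (v + w) = vecPt hN hζ ι hs v + vecPt hN hζ ι hs w := by
  have hne : ι (xF hN hζ v) ≠ ι (xF hN hζ w) := fun he => xF_ne hN hζ hv hw h (ι.injective he)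
  have hd : ι (xF hN hζ v) - ι (xF hN hζ w) ≠ 0 := sub_ne_zero.2 hne
  rw [vecPt_of_isVec hN hζ ι hs hv, vecPt_of_isVec hN hζ ι hs hw, vecPt_of_isVec hN hζ ι hs h.2,
    Affine.Point.add_of_X_ne hne]
  simp only [Affine.Point.some.injEq]
  rw [Affine.slope_of_X_ne hne]
  have e1 := congrArg ι (xF_add hN hζ hv hw h)
  have e2 := congrArg ι (yF_add hN hζ hv hw h)
  simp only [map_mul, map_pow, map_sub, map_add, map_one, map_neg, ← hs] at e1 e2
  simp only [Affine.addX, Affine.addY, Affine.negAddY, Affine.negY, legendre]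
  constructor
  · field_simp
    linear_combination -e1
  · have e3 : ι (xF hN hζ (v + w)) = (s * (ι (yF hN hζ v) - ι (yF hN hζ w)) /
        (ι (xF hN hζ v) - ι (xF hN hζ w))) ^ 2 + (1 + ι (lamF hN hζ)) - ι (xF hN hζ v) -
          ι (xF hN hζ w) := by
      field_simp
      linear_combination -e1
    rw [← mul_sub]
    rw [show (s * (ι (yF hN hζ v) - ι (yF hN hζ w)) / (ι (xF hN hζ v) - ι (xF hN hζ w))) ^ 2 +
      0 * (s * (ι (yF hN hζ v) - ι (yF hN hζ w)) / (ι (xF hN hζ v) - ι (xF hN hζ w))) -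
      -(1 + ι (lamF hN hζ)) - ι (xF hN hζ v) - ι (xF hN hζ w) = ι (xF hN hζ (v + w)) by
        rw [e3]; ring]
    field_simp
    linear_combination s * e2

/-- Additivity. -/
theorem vecPt_add (v w : ℤ × ℤ) :
    vecPt hN hζ ι hs (v + w) = vecPt hN hζ ι hs v + vecPt hN hζ ι hs w := by
  by_cases hv : IsVec N v
  swap
  · rw [vecPt_of_not hN hζ ι hs hv, zero_add]
    exact vecPt_congr hN hζ ι hs (by rwa [add_sub_cancel_right])
  by_cases hw : IsVec N w
  swap
  · rw [vecPt_of_not hN hζ ι hs hw, add_zero]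
    exact vecPt_congr hN hζ ι hs (by rwa [add_sub_cancel_left])
  by_cases hvw : IsVec N (v + w)
  swap
  · rw [vecPt_of_not hN hζ ι hs hvw,
      vecPt_congr hN hζ ι hs (v := v) (w := -w) (by rwa [sub_neg_eq_add]), vecPt_neg,
      neg_add_cancel]
  by_cases hd : IsVec N (v - w)
  · exact vecPt_add_apart hN hζ ι hs hv hw ⟨hd, hvw⟩
  rw [← vecPt_congr hN hζ ι hs hd,
    ← vecPt_congr hN hζ ι hs (v := v + v) (w := v + w) (by rwa [add_sub_add_left_eq_sub])]
  have hvv : IsVec N (v + v) := (isVec_congr (by rwa [add_sub_add_left_eq_sub])).2 hvw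
  obtain ⟨u, hu, huu, hvu⟩ := exists_aux_vec hN (v := v)
  have hvu' : Apart N v (-u) := ⟨by rw [sub_neg_eq_add]; exact hvu.2,
    by rw [← sub_eq_add_neg]; exact hvu.1⟩
  have e1 := vecPt_add_apart hN hζ ι hs hv hu hvu
  have e2 := vecPt_add_apart hN hζ ι hs hv (isVec_neg.2 hu) hvu'
  have e3 := vecPt_add_apart hN hζ ι hs (v := v + u) (w := v + -u) hvu.2
    (by rw [← sub_eq_add_neg]; exact hvu.1)
    ⟨by rw [show v + u - (v + -u) = u + u by ring]; exact huu,
      by rw [show v + u + (v + -u) = v + v by ring]; exact hvv⟩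
  rw [show v + u + (v + -u) = v + v by ring, e1, e2, vecPt_neg] at e3
  rw [e3]
  abel

/-- The homomorphism. -/
def vecHom : ℤ × ℤ →+ (legendre (ι (lamF hN hζ))).toAffine.Point :=
  AddMonoidHom.mk' (vecPt hN hζ ι hs) (vecPt_add hN hζ ι hs)

end point

/-- **The points form a group.** -/
theorem curveHolds : CurveHolds hN hζ := fun _ _ _ ι _ hs =>
  ⟨vecHom hN hζ ι hs, vecPt_eq_zero_iff hN hζ ι hs,
    fun _ hv => ⟨_, vecPt_of_isVec hN hζ ι hs hv⟩⟩

end FA.Carayol

end
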