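import Fermat.Agent.Carayol.Curve.Group
import Fermat.Agent.Carayol.Curve.FormalAdd
import Mathlib.RingTheory.Valuation.LocalSubring
import Mathlib.FieldTheory.IsAlgClosed.AlgebraicClosure

/-!
# Reduction of the torsion points at a valuation where `λ` is integral
-/

set_option autoImplicit false
set_option linter.unusedSectionVars false
set_option linter.style.haveILetI false

noncomputable section

namespace FA.Carayol

open WeierstrassCurve FA.Level FA.Mazur.Wp FA.Local

/-- Every valuation extends along a field homomorphism. -/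
theorem exists_equiv_comap {F L : Type*} [Field F] [Field L] (ι : F →+* L)
    (V : ValuationSubring F) :
    ∃ W : ValuationSubring L, V.valuation.IsEquiv (W.valuation.comap ι) := by
  set R : Subring L := V.toSubring.map ι
  let e : V.toSubring ≃+* R := V.toSubring.equivMapOfInjective ι ι.injective
  set I : Ideal R := (IsLocalRing.maximalIdeal V).map (e : V.toSubring →+* R)
  have hI : I ≠ ⊤ := fun h => by
    have h1 := congrArg (Ideal.map (e.symm : R →+* V.toSubring)) h
    rw [Ideal.map_top] at h1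
    simp only [I, Ideal.map_map, RingEquiv.symm_comp, Ideal.map_id] at h1
    exact (IsLocalRing.maximalIdeal.isMaximal V).ne_top h1
  obtain ⟨W, hR, hW⟩ := Ideal.image_subset_nonunits_valuationSubring I hI
  refine ⟨W, Valuation.isEquiv_iff_val_le_one.2 fun {x} => ?_⟩
  rw [Valuation.comap_apply, W.valuation_le_one_iff, V.valuation_le_one_iff]
  refine ⟨fun hx => hR ⟨x, hx, rfl⟩, fun hx => ?_⟩
  by_contra hxV
  have hxi : x⁻¹ ∈ V := (V.mem_or_inv_mem x).resolve_left hxV
  have hm : (⟨x⁻¹, hxi⟩ : V) ∈ IsLocalRing.maximalIdeal V := by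
    rw [V.valuation_lt_one_iff]
    show V.valuation x⁻¹ < 1
    rw [map_inv₀]
    exact inv_lt_one_of_one_lt₀ (not_le.1 (mt (V.valuation_le_one_iff x).1 hxV))
  have hnu : ι x⁻¹ ∈ W.nonunits := hW ⟨e ⟨x⁻¹, hxi⟩, Ideal.mem_map_of_mem _ hm, rfl⟩
  rw [map_inv₀, W.inv_mem_nonunits_iff] at hnu
  rcases hnu with h | h
  · exact hxV ((map_eq_zero ι).1 h ▸ V.zero_mem)
  · exact h hx

variable {N g : ℕ} (hN : N = 4 * g) [NeZero N] {K : Subfield ℂ} (hζ : ∀ b : ℤ, eta N b ∈ K)

theorem intCoeff_legendre {L Γ : Type*} [Field L] [LinearOrderedCommGroupWithZero Γ]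
    {w : Valuation L Γ} {l : L} (hl : w l ≤ 1) : IntCoeff w (legendre l).toAffine := by
  refine ⟨?_, ?_, ?_, ?_, ?_⟩ <;> simp only [legendre]
  · simp
  · rw [w.map_neg]; exact w.map_add_le w.map_one.le hl
  · simp
  · exact hl
  · simp

/-- Integral points reduce to nonsingular points where the reductions of `0, 1, λ` are distinct. -/
theorem nsRed_legendre {L Γ : Type*} [Field L] [LinearOrderedCommGroupWithZero Γ]
    {w : Valuation L Γ} {l : L} (hl : w l = 1) (hl1 : w (1 - l) = 1) (h2 : w 2 = 1) {x y : L}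
    (he : (legendre l).toAffine.Equation x y) (hx : w x ≤ 1) :
    NsRed w (legendre l).toAffine x y := by
  have hy := le_y_of_le_x (intCoeff_legendre hl.le) he hx
  have hfy : fy (legendre l).toAffine x y = 2 * y := by simp [fy, legendre]
  rcases lt_or_eq_of_le hy with hy1 | hy1
  swap
  · exact Or.inl (by rw [hfy, map_mul, h2, hy1, one_mul])
  right
  have hfx : fx (legendre l).toAffine x y = 3 * x ^ 2 - 2 * (1 + l) * x + l := by
    simp [fx, legendre]
    ring
  have hlt : w (x * (x - 1) * (x - l)) < 1 := by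
    rw [← (legendre_equation_iff l x y).1 he, map_pow]
    exact pow_lt_one₀ zero_le hy1 two_ne_zero
  rw [map_mul, map_mul] at hlt
  have hx1 : w (x - 1) ≤ 1 := w.map_sub_le hx w.map_one.le
  have hxl : w (x - l) ≤ 1 := w.map_sub_le hx hl.le
  have small : w x < 1 ∨ w (x - 1) < 1 ∨ w (x - l) < 1 := by
    by_contra hc
    simp only [not_or, not_lt] at hc
    exact absurd hlt (not_lt.2 (one_le_mul (one_le_mul hc.1 hc.2.1) hc.2.2))
  have hlin : ∀ a b : L, w a < 1 → w b ≤ 1 → w (a * b) < 1 := fun _ _ => map_mul_lt_one'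
  rw [hfx]
  rcases small with h | h | h
  · refine eq_one_of_sub_lt hl ?_
    rw [show 3 * x ^ 2 - 2 * (1 + l) * x + l - l = x * (3 * x - 2 * (1 + l)) by ring]
    exact hlin _ _ h (w.map_sub_le (map_mul_le_one le_three hx)
      (map_mul_le_one le_two (w.map_add_le w.map_one.le hl.le)))
  · refine eq_one_of_sub_lt hl1 ?_
    rw [show 3 * x ^ 2 - 2 * (1 + l) * x + l - (1 - l) = (x - 1) * (3 * x + 1 - 2 * l) by ring]
    exact hlin _ _ h (w.map_sub_le (w.map_add_le (map_mul_le_one le_three hx) w.map_one.le)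
      (map_mul_le_one le_two hl.le))
  · refine eq_one_of_sub_lt (a := -(l * (1 - l))) (by rw [w.map_neg, map_mul, hl, hl1, one_mul]) ?_
    rw [show 3 * x ^ 2 - 2 * (1 + l) * x + l - -(l * (1 - l)) = (x - l) * (3 * x + l - 2) by ring]
    exact hlin _ _ h (w.map_sub_le (w.map_add_le (map_mul_le_one le_three hx) hl.le) le_two)

/-- **The facts about reduction.** -/
theorem kerHolds : KerHolds hN hζ := by
  classical
  intro V hlam
  set Ω := AlgebraicClosure (flN N K)
  set ι : flN N K →+* Ω := algebraMap (flN N K) Ω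
  obtain ⟨s, hs⟩ := IsAlgClosed.exists_pow_nat_eq (ι (dF hN hζ)) two_pos
  obtain ⟨W, hW⟩ := exists_equiv_comap ι V
  set w := W.valuation
  have le1 : ∀ a, V.valuation a ≤ 1 ↔ w (ι a) ≤ 1 := fun a => hW.le_one_iff_le_one
  have lt1 : ∀ a, V.valuation a < 1 ↔ w (ι a) < 1 := fun a => hW.lt_one_iff_lt_one
  have eq1 : ∀ a, V.valuation a = 1 ↔ w (ι a) = 1 := fun a => hW.eq_one_iff_eq_one
  have gt1 : ∀ a, 1 < V.valuation a ↔ 1 < w (ι a) := fun a => by
    rw [← not_le, ← not_le, le1]
  have hlt : ∀ a b, V.valuation a < V.valuation b ↔ w (ι a) < w (ι b) := fun a b => by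
    rw [← not_le, ← not_le, hW b a, Valuation.comap_apply, Valuation.comap_apply]
  have hI : IntCoeff w (legendre (ι (lamF hN hζ))).toAffine :=
    intCoeff_legendre ((le1 _).1 ((V.valuation_le_one_iff _).2 hlam))
  set P := vecHom hN hζ ι hs with hPdef
  have hP0 : ∀ v, P v = 0 ↔ ¬ IsVec N v := vecPt_eq_zero_iff hN hζ ι hs
  have hPs : ∀ v (hv : IsVec N v), P v = .some _ _ (nonsingular_vec hN hζ ι hs hv) :=
    fun v hv => vecPt_of_isVec hN hζ ι hs hv
  have hker : ∀ v, InKer hN hζ V v ↔ E1 w (legendre (ι (lamF hN hζ))).toAffine (P v) := fun v => by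
    by_cases hv : IsVec N v
    · rw [hPs v hv, e1_some, InKer, gt1]
      exact ⟨fun h => h hv, fun h _ => h⟩
    · rw [(hP0 v).2 hv]
      exact iff_of_true (fun h => absurd h hv) e1_zero
  have hs0 : s ≠ 0 := fun h => by
    rw [h, zero_pow two_ne_zero] at hs
    exact dF_ne_zero hN hζ ((map_eq_zero ι).1 hs.symm)
  have hz : ∀ v, ι (zF hN hζ v) = s * zOf (P v) := fun v => by
    by_cases hv : IsVec N v
    · rw [hPs v hv, zOf_some, zF, map_div₀, map_neg, mul_div_assoc', mul_div_mul_left _ _ hs0]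
    · rw [(hP0 v).2 hv, zOf_zero, mul_zero, zF, xF_of_not hN hζ hv, neg_zero, zero_div, map_zero]
  have hzpos : ∀ v, InKer hN hζ V v → IsVec N v → 0 < V.valuation (zF hN hζ v) := fun v hk hv => by
    refine V.valuation.pos_iff.2 fun h0 => ?_
    have h1 := hz v
    rw [h0, map_zero, eq_comm, mul_eq_zero, hPs v hv, zOf_some] at h1
    have h2 := (hker v).1 hk
    rw [hPs v hv, e1_some] at h2
    have h3 := (zu_bounds hI (nonsingular_vec hN hζ ι hs hv) h2).2.2.1
    rw [h1.resolve_left hs0, map_zero] at h3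
    exact lt_irrefl _ h3
  have hadd : ∀ v u, InKer hN hζ V v → InKer hN hζ V u → IsVec N v ∨ IsVec N u →
      V.valuation (zF hN hζ (v + u) - zF hN hζ v - zF hN hζ u) <
        max (V.valuation (zF hN hζ v)) (V.valuation (zF hN hζ u)) := fun v u hv hu hne => by
    rw [lt_max_iff, hlt, hlt, ← lt_max_iff, map_sub ι, map_sub ι, hz, hz, hz, ← mul_sub, ← mul_sub,
      map_mul, map_mul, map_mul, map_add P,
      ← (mul_right_mono (a := w s)).map_max]
    refine mul_lt_mul_of_pos_left (zOf_add_lt hI rfl rfl rfl ((hker v).1 hv) ((hker u).1 hu)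
      (hne.imp ?_ ?_)) (w.pos_iff.2 hs0) <;> exact fun h h0 => (hP0 _).1 h0 h
  have hneg : ∀ v, zF hN hζ (-v) = -zF hN hζ v := fun v => by
    rw [zF, zF, xF_neg, yF_neg, div_neg]
  have hmem : ∀ v u, InKer hN hζ V v → InKer hN hζ V u → InKer hN hζ V (v + u) :=
    fun v u hv hu => (hker _).2 (by rw [map_add]; exact e1_add hI ((hker v).1 hv) ((hker u).1 hu))
  refine ⟨hmem, hadd, fun v hv hvec => ?_, fun hl hl1 h2 v u hv hu hx => ?_⟩
  · have hnat : ∀ k : ℕ, InKer hN hζ V ((k : ℤ) • v) ∧
        V.valuation (zF hN hζ ((k : ℤ) • v) - (k : flN N K) * zF hN hζ v) <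
          V.valuation (zF hN hζ v) := by
      intro k
      induction k with
      | zero =>
        have h0 : ¬ IsVec N (0 : ℤ × ℤ) := fun h => h ⟨dvd_zero _, dvd_zero _⟩
        refine ⟨fun h => absurd (by simpa using h) h0, ?_⟩
        have : zF hN hζ (0 : ℤ × ℤ) = 0 := by rw [zF, xF_of_not hN hζ h0, neg_zero, zero_div]
        simpa [this] using hzpos v hv hvec
      | succ k ih =>
        obtain ⟨hk, hklt⟩ := ih
        have e : ((k + 1 : ℕ) : ℤ) • v = (k : ℤ) • v + v := by push_cast; rw [add_smul, one_smul]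
        refine ⟨e ▸ hmem _ _ hk hv, ?_⟩
        have hkle : V.valuation (zF hN hζ ((k : ℤ) • v)) ≤ V.valuation (zF hN hζ v) := by
          have := V.valuation.map_add_le hklt.le (show V.valuation ((k : flN N K) * zF hN hζ v) ≤
            V.valuation (zF hN hζ v) by rw [map_mul]; exact mul_le_of_le_one_left' (natCast_le_one k))
          rwa [sub_add_cancel] at this
        have h1 := hadd _ _ hk hv (Or.inr hvec)
        rw [max_eq_right hkle] at h1
        rw [e, show zF hN hζ ((k : ℤ) • v + v) - ((k + 1 : ℕ) : flN N K) * zF hN hζ v =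
          (zF hN hζ ((k : ℤ) • v + v) - zF hN hζ ((k : ℤ) • v) - zF hN hζ v) +
            (zF hN hζ ((k : ℤ) • v) - (k : flN N K) * zF hN hζ v) by push_cast; ring]
        exact V.valuation.map_add_lt h1 hklt
    intro k
    obtain ⟨m, rfl | rfl⟩ := k.eq_nat_or_neg
    · simpa using (hnat m).2
    · rw [neg_smul, hneg, Int.cast_neg, Int.cast_natCast, neg_mul, ← neg_sub', V.valuation.map_neg]
      exact (hnat m).2
  · have hvv : IsVec N v := by
      by_contra h
      exact hv fun h' => absurd h' h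
    have huv : IsVec N u := by
      by_contra h
      exact hu fun h' => absurd h' h
    have hxv : V.valuation (xF hN hζ v) ≤ 1 := not_lt.1 fun h => hv fun _ => h
    have hxu : V.valuation (xF hN hζ u) ≤ 1 := not_lt.1 fun h => hu fun _ => h
    have nv := nonsingular_vec hN hζ ι hs hvv
    have nu := nonsingular_vec hN hζ ι hs huv
    have hns := nsRed_legendre (l := ι (lamF hN hζ)) ((eq1 _).1 hl)
      (by rw [← map_one ι, ← map_sub]; exact (eq1 _).1 hl1)
      (by rw [← map_ofNat ι 2]; exact (eq1 _).1 h2) nv.1 ((le1 _).1 hxv)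
    have hxw : w (ι (xF hN hζ v) - ι (xF hN hζ u)) < 1 := by rw [← map_sub]; exact (lt1 _).1 hx
    have hyv := le_y_of_le_x hI nv.1 ((le1 _).1 hxv)
    have hyu := le_y_of_le_x hI nu.1 ((le1 _).1 hxu)
    generalize hy1 : s * ι (yF hN hζ v) = y₁ at nv hns hyv
    generalize hy2 : s * ι (yF hN hζ u) = y₂ at nu hyu
    have e1 := (legendre_equation_iff _ _ _).1 nv.1
    have e2 := (legendre_equation_iff _ _ _).1 nu.1
    have hprod : w (y₁ - y₂) * w (y₁ + y₂) < 1 := by
      rw [← map_mul, show (y₁ - y₂) * (y₁ + y₂) =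
        (ι (xF hN hζ v) - ι (xF hN hζ u)) * (ι (xF hN hζ v) ^ 2 +
          ι (xF hN hζ v) * ι (xF hN hζ u) + ι (xF hN hζ u) ^ 2 -
          (1 + ι (lamF hN hζ)) * (ι (xF hN hζ v) + ι (xF hN hζ u)) + ι (lamF hN hζ)) by
        linear_combination e1 - e2]
      have a := (le1 _).1 hxv
      have b := (le1 _).1 hxu
      have c := ((eq1 _).1 hl).le
      exact map_mul_lt_one' hxw (w.map_add_le (w.map_sub_le (w.map_add_le (w.map_add_le
        (map_pow_le_one a 2) (map_mul_le_one a b)) (map_pow_le_one b 2))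
        (map_mul_le_one (w.map_add_le w.map_one.le c) (w.map_add_le a b))) c)
    rcases lt_or_ge (w (y₁ - y₂)) 1 with hy | hy
    · left
      have h := e1_sub_of_congr hI nv nu ((le1 _).1 hxv) hns hxw hy
      rw [hker, map_sub, hPs v hvv, hPs u huv]
      subst hy1 hy2
      exact h
    · right
      have hy' : w (y₁ + y₂) < 1 := by
        refine lt_of_le_of_lt ?_ hprod
        exact le_mul_of_one_le_left' hy
      have h := e1_sub_of_congr hI nv ((Affine.nonsingular_neg _ _).2 nu) ((le1 _).1 hxv) hns hxw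
        (by simpa [Affine.negY, legendre] using hy')
      rw [← Affine.Point.neg_some nu, sub_neg_eq_add] at h
      rw [hker, map_add, hPs v hvv, hPs u huv]
      subst hy1 hy2
      exact h

end FA.Carayol

end
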