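import Fermat.Agent.Carayol.Curve.Group
import Fermat.Agent.Local.Torsion
import Mathlib.FieldTheory.IsAlgClosed.AlgebraicClosure

/-!
# The division polynomial of an odd prime dividing the level
-/

set_option autoImplicit false
set_option linter.unusedSectionVars false
set_option linter.style.haveILetI false

noncomputable section

namespace FA.Carayol

open WeierstrassCurve FA.Level FA.Mazur.Wp Polynomial

/-- A representative of the classes up to sign modulo `q`. -/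
def IsHalfPair (q : ℕ) (a b : ℕ) : Prop :=
  (a = 0 ∧ 1 ≤ b ∧ b ≤ (q - 1) / 2) ∨ (1 ≤ a ∧ a ≤ (q - 1) / 2 ∧ b < q)

theorem mem_qHalf {q m : ℕ} {v : ℤ × ℤ} :
    v ∈ qHalf q m ↔ ∃ a b : ℕ, IsHalfPair q a b ∧ v = (((m * a : ℕ) : ℤ), ((m * b : ℕ) : ℤ)) := by
  simp only [qHalf, Finset.mem_union, Finset.mem_image, Finset.mem_product, Finset.mem_range,
    Prod.exists]
  constructor
  · rintro (⟨a, ha, rfl⟩ | ⟨a, b, ⟨ha, hb⟩, rfl⟩)
    · exact ⟨0, a + 1, Or.inl ⟨rfl, by omega, by omega⟩, by simp⟩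
    · exact ⟨a + 1, b, Or.inr ⟨by omega, by omega, hb⟩, rfl⟩
  · rintro ⟨a, b, (⟨rfl, h1, h2⟩ | ⟨h1, h2, h3⟩), rfl⟩
    · exact Or.inl ⟨b - 1, by omega, by rw [Nat.sub_add_cancel h1, mul_zero, Nat.cast_zero]⟩
    · exact Or.inr ⟨a - 1, b, ⟨by omega, h3⟩, by rw [Nat.sub_add_cancel h1]⟩

theorem card_qHalf {q m : ℕ} (hq : Odd q) (hm : 0 < m) :
    (qHalf q m).card = (q ^ 2 - 1) / 2 := by
  obtain ⟨k, rfl⟩ := hq
  have hk : (2 * k + 1 - 1) / 2 = k := by omega
  have hm0 : m ≠ 0 := hm.ne'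
  rw [qHalf, Finset.card_union_of_disjoint, Finset.card_image_of_injective,
    Finset.card_image_of_injective, Finset.card_product, Finset.card_range, Finset.card_range, hk]
  · rw [show (2 * k + 1) ^ 2 = 2 * (k + k * (2 * k + 1)) + 1 by ring]
    omega
  · intro p p' h
    simp only [Prod.mk.injEq, Nat.cast_inj, mul_right_inj' hm0, add_left_inj] at h
    exact Prod.ext h.1 h.2
  · intro a a' h
    simpa [hm0] using h
  · rw [Finset.disjoint_left]
    simp only [Finset.mem_image, not_exists, not_and]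
    rintro v ⟨a, -, rfl⟩ p - h
    simp only [Prod.mk.injEq] at h
    have h1 := h.1
    rw [← Nat.cast_zero, Nat.cast_inj, mul_eq_zero] at h1
    omega

theorem isHalf_unique {q : ℕ} (hq : Odd q) {a b a' b' : ℕ} (h : IsHalfPair q a b) (h' : IsHalfPair q a' b')
    (hd : ((q : ℤ) ∣ (a : ℤ) - a' ∧ (q : ℤ) ∣ (b : ℤ) - b') ∨
      ((q : ℤ) ∣ (a : ℤ) + a' ∧ (q : ℤ) ∣ (b : ℤ) + b')) : a = a' ∧ b = b' := by
  obtain ⟨k, rfl⟩ := hq
  have key : ∀ x : ℤ, ((2 * k + 1 : ℕ) : ℤ) ∣ x → -(2 * k + 1 : ℤ) < x → x < 2 * k + 1 → x = 0 := by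
    intro x hx h1 h2
    refine Int.eq_zero_of_abs_lt_dvd hx (abs_lt.2 ⟨?_, ?_⟩) <;> push_cast <;> omega
  rcases hd with ⟨d1, d2⟩ | ⟨d1, d2⟩
  · have e1 := key _ d1 (by rcases h with h | h <;> rcases h' with h' | h' <;> omega)
      (by rcases h with h | h <;> rcases h' with h' | h' <;> omega)
    have e2 := key _ d2 (by rcases h with h | h <;> rcases h' with h' | h' <;> omega)
      (by rcases h with h | h <;> rcases h' with h' | h' <;> omega)
    omega
  · exfalso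
    have e1 := key _ d1 (by rcases h with h | h <;> rcases h' with h' | h' <;> omega)
      (by rcases h with h | h <;> rcases h' with h' | h' <;> omega)
    have e2 := key _ d2 (by rcases h with h | h <;> rcases h' with h' | h' <;> omega)
      (by rcases h with h | h <;> rcases h' with h' | h' <;> omega)
    rcases h with h | h <;> rcases h' with h' | h' <;> omega

variable {N g : ℕ} (hN : N = 4 * g) [NeZero N] {K : Subfield ℂ} (hζ : ∀ b : ℤ, eta N b ∈ K)

/-- The division polynomial. -/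
theorem psiHolds (q m : ℕ) : PsiHolds hN hζ q m := by
  classical
  intro hq hq2 hNqm _
  have hodd : Odd q := hq.odd_of_ne_two hq2
  have hm : 0 < m := Nat.pos_of_ne_zero fun h0 => NeZero.ne N (by rw [hNqm, h0, mul_zero])
  have hdvd : ∀ x : ℤ, (N : ℤ) ∣ (m : ℤ) * x ↔ (q : ℤ) ∣ x := fun x => by
    rw [hNqm, Nat.cast_mul, mul_comm (q : ℤ)]
    exact mul_dvd_mul_iff_left (Int.natCast_ne_zero.2 hm.ne')
  have hvec : ∀ v ∈ qHalf q m, IsVec N v ∧ ¬ IsVec N ((q : ℤ) • v) := by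
    intro v hv
    obtain ⟨a, b, hab, rfl⟩ := mem_qHalf.1 hv
    refine ⟨fun h => ?_, fun h => h ?_⟩
    · simp only [Nat.cast_mul, hdvd, Int.natCast_dvd_natCast] at h
      rcases hab with ⟨-, h1, h2⟩ | ⟨h1, h2, -⟩
      · exact absurd (Nat.le_of_dvd h1 h.2) (by omega)
      · exact absurd (Nat.le_of_dvd h1 h.1) (by omega)
    · simp only [Prod.smul_mk, smul_eq_mul, Nat.cast_mul, mul_left_comm (q : ℤ) (m : ℤ)]
      exact ⟨(hdvd _).2 (dvd_mul_right _ _), (hdvd _).2 (dvd_mul_right _ _)⟩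
  have hinj : Set.InjOn (xF hN hζ) (qHalf q m : Set (ℤ × ℤ)) := by
    intro v hv w hw he
    obtain ⟨a, b, hab, rfl⟩ := mem_qHalf.1 hv
    obtain ⟨a', b', hab', rfl⟩ := mem_qHalf.1 hw
    have hA : ¬ Apart N (((m * a : ℕ) : ℤ), ((m * b : ℕ) : ℤ)) (((m * a' : ℕ) : ℤ), ((m * b' : ℕ) : ℤ)) :=
      fun hA => xF_ne hN hζ (hvec _ hv).1 (hvec _ hw).1 hA he
    rw [Apart, not_and_or, IsVec, IsVec, not_not, not_not] at hA
    simp only [Prod.mk_sub_mk, Prod.mk_add_mk, Nat.cast_mul, ← mul_sub, ← mul_add, hdvd] at hA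
    obtain ⟨rfl, rfl⟩ := isHalf_unique hodd hab hab' hA
    rfl
  refine ⟨hinj, ?_⟩
  set F := flN N K
  have hq0 : (q : F) ≠ 0 := Nat.cast_ne_zero.2 hq.ne_zero
  set f := (legendre (lamF hN hζ)).preΨ' q with hf
  have hf0 : f ≠ 0 := (legendre (lamF hN hζ)).preΨ'_ne_zero hq0
  have hdeg : f.natDegree = (q ^ 2 - 1) / 2 := by
    rw [hf, (legendre (lamF hN hζ)).natDegree_preΨ' hq0, if_neg (Nat.not_even_iff_odd.mpr hodd)]
  set ι : F →+* AlgebraicClosure F := algebraMap F (AlgebraicClosure F)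
  obtain ⟨s, hs⟩ := IsAlgClosed.exists_pow_nat_eq (ι (dF hN hζ)) two_pos
  haveI : (legendre (ι (lamF hN hζ))).IsElliptic :=
    ⟨isUnit_iff_ne_zero.2 (legendre_Δ_ne_zero hN hζ ι)⟩
  have hroot : ∀ v ∈ qHalf q m, f.IsRoot (xF hN hζ v) := by
    intro v hv
    obtain ⟨h1, h2⟩ := hvec v hv
    have h3 := map_zsmul (vecHom hN hζ ι hs) (q : ℤ) v
    rw [show vecHom hN hζ ι hs ((q : ℤ) • v) = 0 from vecPt_of_not hN hζ ι hs h2, natCast_zsmul,
      show vecHom hN hζ ι hs v = _ from vecPt_of_isVec hN hζ ι hs h1, eq_comm,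
      FA.Local.eval_preΨ'_eq_zero_iff hodd] at h3
    rw [← legendre_mapC ι, WeierstrassCurve.map_preΨ', eval_map, eval₂_hom,
      map_eq_zero_iff _ ι.injective] at h3
    exact h3
  set S := (qHalf q m).image (xF hN hζ) with hS
  have hScard : S.card = (q ^ 2 - 1) / 2 := by
    rw [hS, Finset.card_image_of_injOn hinj, card_qHalf hodd hm]
  have hsub : S.val ≤ f.roots := (Multiset.le_iff_subset S.nodup).2 fun x hx => by
    obtain ⟨v, hv, rfl⟩ := Finset.mem_image.1 hx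
    exact (mem_roots hf0).2 (hroot v hv)
  have hroots : S.val = f.roots := Multiset.eq_of_le_of_card_le hsub (by
    refine (card_roots' f).trans ?_
    rw [hdeg, Finset.card_val, hScard])
  have hcard : Multiset.card f.roots = f.natDegree := by
    rw [← hroots, Finset.card_val, hScard, hdeg]
  conv_lhs => rw [← C_leadingCoeff_mul_prod_multiset_X_sub_C hcard]
  rw [hf, (legendre (lamF hN hζ)).leadingCoeff_preΨ' hq0, if_neg (Nat.not_even_iff_odd.mpr hodd),
    ← hf, ← hroots, hS, ← Finset.prod_eq_multiset_prod, Finset.prod_image hinj]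

end FA.Carayol

end
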